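import Mathlib
import Fermat.Agent.G.Conj.Series

/-!
# Program T (S35), auxiliary level : THE DEGREE OF `β` AND THE ATKIN-LEHNER INVOLUTION AT THE LEVEL
`ℚ̄` (prefix `s35db`)

`F(N) = modularFunctionFieldBar N`, `α = heckeAlphaBar ℚ̄ N ℓ` (inclusion), `β = heckeBetaBar ℚ̄ N ℓ`
(`f(x) ↦ f(x^ℓ)`), `ℓ` a prime.

* `s35db_induction` : `F(N ℓ)` is generated (as a field) by `α F(N) ∪ β F(N)`;
  `s35db_hom_ext` : ring homomorphisms out of `F(N ℓ)` agreeing on `α F(N)` and `β F(N)` are equal;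
* `s35db_exists_w` (`ℓ ∤ N`) : THE ATKIN-LEHNER INVOLUTION `w : F(N ℓ) ≃+* F(N ℓ)` with
  `w ∘ α = β`, `w ∘ β = α`, `w ∘ w = id`, `w` trivial on `ℚ̄` (from the expansion
  `σ₀ = degLift (N ℓ) (ξ 0)` at the other cusp: `σ₀ (α f) = f(x^{N ℓ})`, `σ₀ (β f) = f(x^N)`);
* `s35db_finrank_beta` (`ℓ ∤ N`) : `[F(N ℓ) : β F(N)] = ℓ + 1`.
-/

set_option autoImplicit false
set_option linter.unusedSectionVars false
set_option linter.unusedVariables false
set_option linter.style.haveILetI false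

noncomputable section

namespace Fermat.Agent.G

open ModularCurve AlgebraicCurve Fermat.Agent.S24 IntermediateField

local notation "Qb" => AlgebraicClosure ℚ

section Generation

variable (N ℓ : ℕ) [NeZero N] [NeZero ℓ]

/-- divisors of `N ℓ`, `ℓ` prime -/
theorem s35db_dvd_cases (hℓ : ℓ.Prime) {d : ℕ} (hd : d ∣ N * ℓ) :
    d ∣ N ∨ ∃ d', d' ∣ N ∧ d = ℓ * d' := by
  by_cases h : ℓ ∣ d
  · obtain ⟨d', rfl⟩ := h
    refine Or.inr ⟨d', ?_, rfl⟩
    rw [mul_comm N ℓ] at hd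
    exact Nat.dvd_of_mul_dvd_mul_left hℓ.pos hd
  · refine Or.inl ?_
    have hcop : Nat.Coprime d ℓ := (Nat.Coprime.symm ((Nat.Prime.coprime_iff_not_dvd hℓ).2 h))
    exact hcop.dvd_of_dvd_mul_right hd

/-- **generation** : `F(N ℓ)` is generated by `α F(N)` and `β F(N)`. -/
theorem s35db_induction (hℓ : ℓ.Prime) {P : modularFunctionFieldBar (N * ℓ) → Prop}
    (hα : ∀ x : modularFunctionFieldBar N, P (heckeAlphaBar Qb N ℓ x))
    (hβ : ∀ x : modularFunctionFieldBar N, P (heckeBetaBar Qb N ℓ x))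
    (hadd : ∀ x y, P x → P y → P (x + y)) (hneg : ∀ x, P x → P (-x))
    (hmul : ∀ x y, P x → P y → P (x * y)) (hinv : ∀ x, P x → P x⁻¹) :
    ∀ x, P x := by
  -- the rational layer
  have hrat : ∀ (y : LaurentSeries ℚ) (hy : y ∈ modularFunctionFieldFull (N * ℓ)),
      P ⟨coeffEmb Qb y, coeffEmb_mem_laurentBaseChange Qb hy⟩ := by
    intro y hy
    unfold modularFunctionFieldFull at hy
    induction hy using IntermediateField.adjoin_induction with
    | mem y hy =>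
      obtain ⟨d, hne, hdvd, rfl⟩ := hy
      haveI := hne
      rcases s35db_dvd_cases N ℓ hℓ hdvd with hdN | ⟨d', hd'N, rfl⟩
      · have h := hα ⟨coeffEmb Qb (qExpand ℚ d jq),
          coeffEmb_mem_laurentBaseChange Qb (jqd_mem_full N hdN)⟩
        exact h
      · have hd'0 : d' ≠ 0 := by
          rintro rfl
          exact NeZero.ne (ℓ * 0) (mul_zero ℓ)
        haveI : NeZero d' := ⟨hd'0⟩
        have h := hβ ⟨coeffEmb Qb (qExpand ℚ d' jq),
          coeffEmb_mem_laurentBaseChange Qb (jqd_mem_full N hd'N)⟩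
        have e : (heckeBetaBar Qb N ℓ ⟨coeffEmb Qb (qExpand ℚ d' jq),
            coeffEmb_mem_laurentBaseChange Qb (jqd_mem_full N hd'N)⟩ :
              modularFunctionFieldBar (N * ℓ)) =
            ⟨coeffEmb Qb (qExpand ℚ (ℓ * d') jq), coeffEmb_mem_laurentBaseChange Qb
              (subset_adjoin ℚ _ ⟨ℓ * d', hne, hdvd, rfl⟩)⟩ := by
          apply Subtype.ext
          show qExpand Qb ℓ (coeffEmb Qb (qExpand ℚ d' jq)) = coeffEmb Qb (qExpand ℚ (ℓ * d') jq)
          rw [coeffEmb, ← coeffMap_qExpand, qExpand_qExpand]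
        rw [e] at h
        exact h
    | algebraMap r =>
      have h := hα (algebraMap Qb (modularFunctionFieldBar N) (algebraMap ℚ Qb r))
      have e : (heckeAlphaBar Qb N ℓ (algebraMap Qb (modularFunctionFieldBar N) (algebraMap ℚ Qb r)) :
          modularFunctionFieldBar (N * ℓ)) =
          ⟨coeffEmb Qb (algebraMap ℚ (LaurentSeries ℚ) r), coeffEmb_mem_laurentBaseChange Qb
            (IntermediateField.algebraMap_mem _ r)⟩ := by
        apply Subtype.ext
        rw [coe_heckeAlphaBar]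
        show algebraMap Qb (LaurentSeries Qb) (algebraMap ℚ Qb r) =
          coeffEmb Qb (algebraMap ℚ (LaurentSeries ℚ) r)
        rw [coeffEmb, algebraMap_laurentSeries_eq_single, algebraMap_laurentSeries_eq_single,
          coeffMap_single]
      rw [e] at h
      exact h
    | add x y hx hy ihx ihy =>
      have h := hadd _ _ ihx ihy
      have e : (⟨coeffEmb Qb x, coeffEmb_mem_laurentBaseChange Qb hx⟩ +
          ⟨coeffEmb Qb y, coeffEmb_mem_laurentBaseChange Qb hy⟩ :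
            modularFunctionFieldBar (N * ℓ)) =
          ⟨coeffEmb Qb (x + y), coeffEmb_mem_laurentBaseChange Qb (add_mem hx hy)⟩ :=
        Subtype.ext (map_add (coeffEmb Qb) x y).symm
      rw [e] at h
      exact h
    | inv x hx ihx =>
      have h := hinv _ ihx
      have e : ((⟨coeffEmb Qb x, coeffEmb_mem_laurentBaseChange Qb hx⟩ :
            modularFunctionFieldBar (N * ℓ))⁻¹) =
          ⟨coeffEmb Qb x⁻¹, coeffEmb_mem_laurentBaseChange Qb (inv_mem hx)⟩ :=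
        Subtype.ext (map_inv₀ (coeffEmb Qb) x).symm
      rw [e] at h
      exact h
    | mul x y hx hy ihx ihy =>
      have h := hmul _ _ ihx ihy
      have e : (⟨coeffEmb Qb x, coeffEmb_mem_laurentBaseChange Qb hx⟩ *
          ⟨coeffEmb Qb y, coeffEmb_mem_laurentBaseChange Qb hy⟩ :
            modularFunctionFieldBar (N * ℓ)) =
          ⟨coeffEmb Qb (x * y), coeffEmb_mem_laurentBaseChange Qb (mul_mem hx hy)⟩ :=
        Subtype.ext (map_mul (coeffEmb Qb) x y).symm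
      rw [e] at h
      exact h
  -- the layer over `ℚ̄`
  rintro ⟨s, hs⟩
  have hs' := hs
  rw [mem_laurentBaseChange_iff] at hs'
  induction hs' using Subfield.closure_induction with
  | mem y hy =>
    rcases hy with ⟨a, rfl⟩ | ⟨z, hz, rfl⟩
    · have h := hα (algebraMap Qb (modularFunctionFieldBar N) a)
      have e : (heckeAlphaBar Qb N ℓ (algebraMap Qb (modularFunctionFieldBar N) a) :
          modularFunctionFieldBar (N * ℓ)) = ⟨algebraMap Qb (LaurentSeries Qb) a, hs⟩ := by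
        apply Subtype.ext
        rw [coe_heckeAlphaBar]
        rfl
      rw [e] at h
      exact h
    · exact hrat z hz
  | one =>
    have h := hα 1
    rw [map_one] at h
    exact h
  | add x y hx hy ihx ihy =>
    exact hadd ⟨x, hx⟩ ⟨y, hy⟩ (ihx hx) (ihy hy)
  | neg x hx ihx => exact hneg ⟨x, hx⟩ (ihx hx)
  | inv x hx ihx => exact hinv ⟨x, hx⟩ (ihx hx)
  | mul x y hx hy ihx ihy => exact hmul ⟨x, hx⟩ ⟨y, hy⟩ (ihx hx) (ihy hy)

/-- ring homomorphisms out of `F(N ℓ)` are determined by their values on `α F(N)` and `β F(N)`. -/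
theorem s35db_hom_ext (hℓ : ℓ.Prime) {S : Type*} [DivisionRing S]
    (f g : modularFunctionFieldBar (N * ℓ) →+* S)
    (hα : ∀ x : modularFunctionFieldBar N,
      f (heckeAlphaBar Qb N ℓ x) = g (heckeAlphaBar Qb N ℓ x))
    (hβ : ∀ x : modularFunctionFieldBar N,
      f (heckeBetaBar Qb N ℓ x) = g (heckeBetaBar Qb N ℓ x)) : f = g := by
  apply RingHom.ext
  refine s35db_induction N ℓ hℓ (P := fun x => f x = g x) hα hβ ?_ ?_ ?_ ?_
  · intro x y hx hy
    rw [map_add, map_add, hx, hy]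
  · intro x hx
    rw [map_neg, map_neg, hx]
  · intro x y hx hy
    rw [map_mul, map_mul, hx, hy]
  · intro x hx
    rw [map_inv₀, map_inv₀, hx]

end Generation

/-! ### the Atkin-Lehner involution -/

section Involution

variable (N : ℕ) [NeZero N] {ℓ : ℕ} [Fact ℓ.Prime]

/-- every value of the expansion `σ₀` at the other cusp is `z(x^N)` for some `z ∈ F(N ℓ)` -/
theorem s35db_sigma_mem (σ : haveI : NeZero ℓ := ⟨(Fact.out : ℓ.Prime).ne_zero⟩
      modularFunctionFieldBar (N * ℓ) →+* LaurentSeries Qb)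
    (hσα : haveI : NeZero ℓ := ⟨(Fact.out : ℓ.Prime).ne_zero⟩
      ∀ x : modularFunctionFieldBar N,
        σ (heckeAlphaBar Qb N ℓ x) = qExpand Qb (N * ℓ) (x : LaurentSeries Qb))
    (hσβ : haveI : NeZero ℓ := ⟨(Fact.out : ℓ.Prime).ne_zero⟩
      ∀ x : modularFunctionFieldBar N,
        σ (heckeBetaBar Qb N ℓ x) = qExpand Qb N (x : LaurentSeries Qb)) :
    haveI : NeZero ℓ := ⟨(Fact.out : ℓ.Prime).ne_zero⟩
    ∀ x : modularFunctionFieldBar (N * ℓ), ∃ z : modularFunctionFieldBar (N * ℓ),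
      qExpand Qb N (z : LaurentSeries Qb) = σ x := by
  have hℓ : ℓ.Prime := Fact.out
  haveI : NeZero ℓ := ⟨hℓ.ne_zero⟩
  refine s35db_induction N ℓ hℓ (P := fun x => ∃ z : modularFunctionFieldBar (N * ℓ),
      qExpand Qb N (z : LaurentSeries Qb) = σ x) ?_ ?_ ?_ ?_ ?_ ?_
  · intro x
    refine ⟨heckeBetaBar Qb N ℓ x, ?_⟩
    rw [hσα]
    show qExpand Qb N (qExpand Qb ℓ (x : LaurentSeries Qb)) = _
    rw [qExpand_qExpand]
  · intro x
    exact ⟨heckeAlphaBar Qb N ℓ x, by rw [hσβ, coe_heckeAlphaBar]⟩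
  · rintro x y ⟨z, hz⟩ ⟨z', hz'⟩
    refine ⟨z + z', ?_⟩
    rw [map_add σ]
    push_cast
    rw [map_add, hz, hz']
  · rintro x ⟨z, hz⟩
    refine ⟨-z, ?_⟩
    rw [map_neg σ]
    push_cast
    rw [map_neg, hz]
  · rintro x y ⟨z, hz⟩ ⟨z', hz'⟩
    refine ⟨z * z', ?_⟩
    rw [map_mul σ]
    push_cast
    rw [map_mul, hz, hz']
  · rintro x ⟨z, hz⟩
    refine ⟨z⁻¹, ?_⟩
    rw [map_inv₀ σ]
    push_cast
    rw [map_inv₀, hz]

/-- the expansion at the other cusp : `σ₀ (α f) = f(x^{N ℓ})`, `σ₀ (β f) = f(x^N)`. -/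
theorem s35db_exists_sigma (hℓN : ¬ ℓ ∣ N) :
    haveI : NeZero ℓ := ⟨(Fact.out : ℓ.Prime).ne_zero⟩
    ∃ σ : modularFunctionFieldBar (N * ℓ) →+* LaurentSeries Qb,
      (∀ x : modularFunctionFieldBar N,
        σ (heckeAlphaBar Qb N ℓ x) = qExpand Qb (N * ℓ) (x : LaurentSeries Qb)) ∧
      (∀ x : modularFunctionFieldBar N,
        σ (heckeBetaBar Qb N ℓ x) = qExpand Qb N (x : LaurentSeries Qb)) := by
  have hℓ : ℓ.Prime := Fact.out
  haveI : NeZero ℓ := ⟨hℓ.ne_zero⟩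
  obtain ⟨ζ₀, hprim, hζ₀⟩ := gcjs_exists_zeta ℓ
  obtain ⟨ξ, γ', hγ', hξ, hmat, hξnot, hξdvd⟩ :=
    gcj_exists_reps N ℓ hℓ.one_lt ((Nat.Prime.coprime_iff_not_dvd hℓ).2 hℓN)
  refine ⟨degLift (N * ℓ) (ξ 0), fun x => gcjs_degLift_alpha N ℓ (ξ 0) (hξ 0) x, fun x => ?_⟩
  have h := gcjs_degLift_beta N ℓ ζ₀ hζ₀ (ξ 0) γ' hγ' 0 (hmat 0) x
  rw [h, pow_zero, gcjfRot_one]

/-- **the Atkin-Lehner involution** `w` of `F_ℚ̄(N ℓ)`, `ℓ ∤ N` : a ring automorphism exchanging
`α` and `β`. -/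
theorem s35db_exists_w (hℓN : ¬ ℓ ∣ N) :
    haveI : NeZero ℓ := ⟨(Fact.out : ℓ.Prime).ne_zero⟩
    ∃ w : modularFunctionFieldBar (N * ℓ) ≃+* modularFunctionFieldBar (N * ℓ),
      (∀ x : modularFunctionFieldBar N, w (heckeAlphaBar Qb N ℓ x) = heckeBetaBar Qb N ℓ x) ∧
      (∀ x : modularFunctionFieldBar N, w (heckeBetaBar Qb N ℓ x) = heckeAlphaBar Qb N ℓ x) ∧
      (∀ x : modularFunctionFieldBar (N * ℓ), w (w x) = x) ∧
      (∀ c : Qb, w (algebraMap Qb (modularFunctionFieldBar (N * ℓ)) c) =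
        algebraMap Qb (modularFunctionFieldBar (N * ℓ)) c) := by
  have hℓ : ℓ.Prime := Fact.out
  haveI : NeZero ℓ := ⟨hℓ.ne_zero⟩
  obtain ⟨σ, hσα, hσβ⟩ := s35db_exists_sigma N hℓN
  choose f hf using s35db_sigma_mem N σ hσα hσβ
  have hinj : ∀ z z' : modularFunctionFieldBar (N * ℓ),
      qExpand Qb N (z : LaurentSeries Qb) = qExpand Qb N (z' : LaurentSeries Qb) → z = z' :=
    fun z z' h => Subtype.ext (qExpand_injective N h)
  let w₀ : modularFunctionFieldBar (N * ℓ) →+* modularFunctionFieldBar (N * ℓ) :=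
    { toFun := f
      map_one' := hinj _ _ (by rw [hf, map_one]; push_cast; rw [map_one])
      map_mul' := fun x y => hinj _ _ (by
        rw [hf, map_mul σ]; push_cast; rw [map_mul, hf, hf])
      map_zero' := hinj _ _ (by rw [hf, map_zero]; push_cast; rw [map_zero])
      map_add' := fun x y => hinj _ _ (by
        rw [hf, map_add σ]; push_cast; rw [map_add, hf, hf]) }
  have hw₀ : ∀ x, qExpand Qb N ((w₀ x : modularFunctionFieldBar (N * ℓ)) : LaurentSeries Qb) =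
      σ x := hf
  have h1 : ∀ x : modularFunctionFieldBar N,
      w₀ (heckeAlphaBar Qb N ℓ x) = heckeBetaBar Qb N ℓ x := by
    intro x
    apply hinj
    rw [hw₀, hσα]
    show _ = qExpand Qb N (qExpand Qb ℓ (x : LaurentSeries Qb))
    rw [qExpand_qExpand]
  have h2 : ∀ x : modularFunctionFieldBar N,
      w₀ (heckeBetaBar Qb N ℓ x) = heckeAlphaBar Qb N ℓ x := by
    intro x
    apply hinj
    rw [hw₀, hσβ, coe_heckeAlphaBar]
  have h3 : w₀.comp w₀ = RingHom.id _ := by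
    apply s35db_hom_ext N ℓ hℓ
    · intro x
      rw [RingHom.comp_apply, h1, h2, RingHom.id_apply]
    · intro x
      rw [RingHom.comp_apply, h2, h1, RingHom.id_apply]
  refine ⟨RingEquiv.ofRingHom w₀ w₀ h3 h3, h1, h2, fun x => RingHom.congr_fun h3 x, ?_⟩
  intro c
  have e : algebraMap Qb (modularFunctionFieldBar (N * ℓ)) c =
      heckeAlphaBar Qb N ℓ (algebraMap Qb (modularFunctionFieldBar N) c) := by
    rw [AlgHom.commutes]
  have e' : algebraMap Qb (modularFunctionFieldBar (N * ℓ)) c =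
      heckeBetaBar Qb N ℓ (algebraMap Qb (modularFunctionFieldBar N) c) := by
    rw [AlgHom.commutes]
  show w₀ _ = _
  rw [e, h1, ← e', ← e]

/-- **(DEG-β)** `[F_ℚ̄(N ℓ) : β F_ℚ̄(N)] = ℓ + 1` for a prime `ℓ ∤ N`. -/
theorem s35db_finrank_beta (hℓN : ¬ ℓ ∣ N) :
    haveI : NeZero ℓ := ⟨(Fact.out : ℓ.Prime).ne_zero⟩
    letI := algebraAlong (heckeBetaBar Qb N ℓ)
    Module.finrank (modularFunctionFieldBar N) (modularFunctionFieldBar (N * ℓ)) = ℓ + 1 := by
  haveI : NeZero ℓ := ⟨(Fact.out : ℓ.Prime).ne_zero⟩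
  obtain ⟨w, hwα, hwβ, -, -⟩ := s35db_exists_w N hℓN
  rw [← gcjd_finrank N hℓN]
  refine @Algebra.finrank_eq_of_equiv_equiv _ _ _ _ (algebraAlong (heckeBetaBar Qb N ℓ)) _ _ _ _
    (algebraAlong (heckeAlphaBar Qb N ℓ)) (RingEquiv.refl _) w ?_
  refine RingHom.ext fun x => ?_
  exact (hwβ x).symm

/-- the same in the form `finrankAlong`. -/
theorem s35db_finrankAlong_beta (hℓN : ¬ ℓ ∣ N) :
    haveI : NeZero ℓ := ⟨(Fact.out : ℓ.Prime).ne_zero⟩
    finrankAlong Qb (heckeBetaBar Qb N ℓ) = ℓ + 1 :=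
  s35db_finrank_beta N hℓN

/-- `finrankAlong` of `α`. -/
theorem s35db_finrankAlong_alpha (hℓN : ¬ ℓ ∣ N) :
    haveI : NeZero ℓ := ⟨(Fact.out : ℓ.Prime).ne_zero⟩
    finrankAlong Qb (heckeAlphaBar Qb N ℓ) = ℓ + 1 :=
  gcjd_finrank N hℓN

end Involution

end Fermat.Agent.G
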